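/-
S52 (the 3–5 switch), node [AP] (helper5; prefix `s52a_`).

A Galois-equivariant injective additive map `E[n] → E'[n]` between the `n`-torsion of two integral
Weierstrass models forces `a_ℓ(W') ≡ a_ℓ(W) mod n` at every prime `ℓ ∤ n` of good reduction for
both, as soon as `E[n]` has a point of exact order `n`.

Proof: a Frobenius `σ` at a place over `ℓ` satisfies `σ²P - a_ℓ σP + ℓP = 0` on `E[n]` and
`σ²Q - a'_ℓ σQ + ℓQ = 0` on `E'[n]` (`s58fa_frobSeam`); transporting the first relation by the map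
and subtracting gives `(a'_ℓ - a_ℓ) • σ(φ P) = 0`, hence `(a'_ℓ - a_ℓ) • P = 0`.
-/
import Fermat.Agent.S58.Frob.Seam
import Fermat.Agent.S35.SMO.StrongLin
import Fermat.Agent.JT3.ES.FrobExists
import Fermat.Agent.S13.Ladder.Vieta

set_option autoImplicit false

open scoped WeierstrassCurve.Affine

namespace Fermat.Agent.S52

open Fermat.Agent.S58

/-- The `n`-torsion subgroup of `W(ℚ̄)`. -/
noncomputable def s52a_tor (W : WeierstrassCurve ℤ) (n : ℕ) : AddSubgroup (s58_E W) where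
  carrier := {P | n • P = 0}
  zero_mem' := smul_zero n
  add_mem' := fun {P Q} hP hQ => by
    show n • (P + Q) = 0
    rw [nsmul_add, show n • P = 0 from hP, show n • Q = 0 from hQ, add_zero]
  neg_mem' := fun {P} hP => by
    show n • (-P) = 0
    rw [neg_nsmul, show n • P = 0 from hP, neg_zero]

theorem s52a_mem_tor {W : WeierstrassCurve ℤ} {n : ℕ} {P : s58_E W} :
    P ∈ s52a_tor W n ↔ n • P = 0 := Iff.rfl

theorem s52a_smul_mem_tor {W : WeierstrassCurve ℤ} {n : ℕ} (σ : s58_G) {P : s58_E W}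
    (hP : n • P = 0) : n • (σ • P) = 0 := by
  rw [s58fa_smul_nsmul, hP]
  exact map_zero (DistribSMul.toAddMonoidHom (s58_E W) σ)

/-- existence of a Frobenius element at every prime -/
theorem s52a_exists_frob {ℓ : ℕ} (hℓ : ℓ.Prime) :
    ∃ (A : ValuationSubring s58_Qb) (σ : s58_G), A.LiesOverPrime ℓ ∧ A.IsFrobeniusAt σ ℓ := by
  obtain ⟨A, hA⟩ := Fermat.Agent.S35.smos_exists_place ℓ hℓ
  obtain ⟨σ, hσ⟩ := Fermat.Agent.JT3.fex_exists_isFrobeniusAt hℓ A hA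
  exact ⟨A, σ, hA, hσ⟩

/-- **[AP].**  A Galois-equivariant injective additive map `E[n] → E'[n]` forces
`a_ℓ(W') ≡ a_ℓ(W) mod n` at the good primes `ℓ ∤ n`. -/
theorem s52a_main (W W' : WeierstrassCurve ℤ) (n : ℕ) (φ : s58_E W → s58_E W')
    (hadd : ∀ P Q, n • P = 0 → n • Q = 0 → φ (P + Q) = φ P + φ Q)
    (hinj : ∀ P, n • P = 0 → φ P = 0 → P = 0)
    (htor : ∀ P, n • P = 0 → n • φ P = 0)
    (hequiv : ∀ (σ : s58_G) (P : s58_E W), n • P = 0 → φ (σ • P) = σ • φ P)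
    (hex : ∃ P : s58_E W, n • P = 0 ∧ ∀ m : ℤ, m • P = 0 → (n : ℤ) ∣ m)
    (ℓ : ℕ) (hℓ : ℓ.Prime) (hℓn : n.Coprime ℓ) (hg : ¬ (ℓ : ℤ) ∣ W.Δ) (hg' : ¬ (ℓ : ℤ) ∣ W'.Δ) :
    (n : ℤ) ∣ W'.apOfModel ℓ - W.apOfModel ℓ := by
  obtain ⟨A, σ, hA, hσ⟩ := s52a_exists_frob hℓ
  obtain ⟨P, hP, hPex⟩ := hex
  -- the bundled map on the torsion subgroup
  let ψ : ↥(s52a_tor W n) →+ s58_E W' :=
    AddMonoidHom.mk' (fun T => φ (T : s58_E W)) (fun T T' => hadd T T' T.2 T'.2)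
  have hψ : ∀ T : ↥(s52a_tor W n), ψ T = φ (T : s58_E W) := fun _ => rfl
  -- the points `P`, `σ P`, `σ² P` of the torsion subgroup
  have hσP : n • (σ • P) = 0 := s52a_smul_mem_tor σ hP
  have hσσP : n • (σ • σ • P) = 0 := s52a_smul_mem_tor σ hσP
  let T0 : ↥(s52a_tor W n) := ⟨P, hP⟩
  let T1 : ↥(s52a_tor W n) := ⟨σ • P, hσP⟩
  let T2 : ↥(s52a_tor W n) := ⟨σ • σ • P, hσσP⟩
  -- the two Frobenius relations
  have hrel : σ • σ • P - W.apOfModel ℓ • (σ • P) + (ℓ : ℤ) • P = 0 :=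
    s58fa_frobSeam W ℓ hℓ hg A hA σ hσ n P hℓn hP
  have hrel' : σ • σ • φ P - W'.apOfModel ℓ • (σ • φ P) + (ℓ : ℤ) • φ P = 0 :=
    s58fa_frobSeam W' ℓ hℓ hg' A hA σ hσ n (φ P) hℓn (htor P hP)
  -- transport the first relation
  have hT : T2 - W.apOfModel ℓ • T1 + (ℓ : ℤ) • T0 = 0 := by
    apply Subtype.ext
    simpa [T0, T1, T2] using hrel
  have h1 := congrArg ψ hT
  rw [map_add, map_sub, map_zsmul, map_zsmul, map_zero, hψ, hψ, hψ] at h1
  have e1 : φ (σ • P) = σ • φ P := hequiv σ P hP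
  have e2 : φ (σ • σ • P) = σ • σ • φ P := by
    rw [hequiv σ (σ • P) hσP, e1]
  simp only [T0, T1, T2] at h1
  rw [e1, e2] at h1
  -- subtract
  have h2 : (W'.apOfModel ℓ - W.apOfModel ℓ) • (σ • φ P) = 0 := by
    have := sub_eq_zero.2 (h1.trans hrel'.symm)
    rw [sub_smul]
    rw [← this]
    abel
  -- `σ` is injective
  have h3 : (W'.apOfModel ℓ - W.apOfModel ℓ) • φ P = 0 := by
    have h4 : σ • ((W'.apOfModel ℓ - W.apOfModel ℓ) • φ P) = 0 := by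
      rw [← h2]
      exact map_zsmul (DistribSMul.toAddMonoidHom (s58_E W') σ) _ _
    have h5 : σ⁻¹ • (σ • ((W'.apOfModel ℓ - W.apOfModel ℓ) • φ P)) = σ⁻¹ • (0 : s58_E W') :=
      congrArg (fun Q => σ⁻¹ • Q) h4
    rw [inv_smul_smul] at h5
    rw [h5]
    exact map_zero (DistribSMul.toAddMonoidHom (s58_E W') σ⁻¹)
  -- back to `P`
  have h6 : φ ((W'.apOfModel ℓ - W.apOfModel ℓ) • P) = 0 := by
    have : ψ ((W'.apOfModel ℓ - W.apOfModel ℓ) • T0) = 0 := by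
      rw [map_zsmul, hψ]
      exact h3
    exact this
  have h7 : n • ((W'.apOfModel ℓ - W.apOfModel ℓ) • P) = 0 := by
    rw [smul_comm, hP, zsmul_zero]
  exact hPex _ (hinj _ h7 h6)

/-- `E[n]` has a point of exact order `n`, for an odd prime `n`. -/
theorem s52a_exists_exact (W : WeierstrassCurve ℤ) (hΔ : W.Δ ≠ 0) {n : ℕ} (hn : n.Prime)
    (hodd : Odd n) :
    ∃ P : s58_E W, n • P = 0 ∧ ∀ m : ℤ, m • P = 0 → (n : ℤ) ∣ m := by
  classical
  have hΔ' : ((s58_WQ W)⁄s58_Qb).Δ ≠ 0 := by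
    show ((W.map (Int.castRingHom ℚ)).map (algebraMap ℚ s58_Qb)).Δ ≠ 0
    rw [WeierstrassCurve.map_Δ, WeierstrassCurve.map_Δ]
    intro h
    apply hΔ
    have h1 : (algebraMap ℚ s58_Qb) ((Int.castRingHom ℚ) W.Δ) = 0 := h
    have h2 : (Int.castRingHom ℚ) W.Δ = 0 :=
      (map_eq_zero_iff _ (algebraMap ℚ s58_Qb).injective).1 h1
    have h3 : ((W.Δ : ℤ) : ℚ) = 0 := h2
    exact_mod_cast h3
  have hcard := Fermat.Agent.S13.ld_card_torsion ((s58_WQ W)⁄s58_Qb) hΔ' hodd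
  have h1 : 1 < Nat.card {T : s58_E W // n • T = 0} := by
    rw [hcard]
    exact Nat.one_lt_pow (by norm_num) hn.one_lt
  have hfin : Finite {T : s58_E W // n • T = 0} := Nat.finite_of_card_ne_zero (by omega)
  have hnt : Nontrivial {T : s58_E W // n • T = 0} := Finite.one_lt_card_iff_nontrivial.1 h1
  obtain ⟨⟨P, hP⟩, hne⟩ := exists_ne (⟨0, nsmul_zero n⟩ : {T : s58_E W // n • T = 0})
  have hP0 : P ≠ 0 := fun h => hne (Subtype.ext h)
  have hord : addOrderOf P = n := by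
    have hdvd : addOrderOf P ∣ n := addOrderOf_dvd_of_nsmul_eq_zero hP
    rcases (Nat.dvd_prime hn).1 hdvd with h | h
    · exact absurd (AddMonoid.addOrderOf_eq_one_iff.1 h) hP0
    · exact h
  refine ⟨P, hP, fun m hm => ?_⟩
  rw [← hord]
  exact addOrderOf_dvd_iff_zsmul_eq_zero.2 hm

/-- **[AP] in the shape of the last clause of S52** (`n = 5`). -/
theorem s52a_five (W W' : WeierstrassCurve ℤ) (hΔ : W.Δ ≠ 0) (φ : s58_E W → s58_E W')
    (hadd : ∀ P Q, 5 • P = 0 → 5 • Q = 0 → φ (P + Q) = φ P + φ Q)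
    (hinj : ∀ P, 5 • P = 0 → φ P = 0 → P = 0)
    (htor : ∀ P, 5 • P = 0 → 5 • φ P = 0)
    (hequiv : ∀ (σ : s58_G) (P : s58_E W), 5 • P = 0 → φ (σ • P) = σ • φ P) :
    ∀ ℓ : ℕ, ℓ.Prime → W.IsGoodPrimeFor ℓ → W'.IsGoodPrimeFor ℓ → ℓ ≠ 5 →
      (5 : ℤ) ∣ (W'.apOfModel ℓ - W.apOfModel ℓ) := by
  intro ℓ hℓ hg hg' hℓ5
  have hcop : Nat.Coprime 5 ℓ := (Nat.coprime_primes (by norm_num) hℓ).2 (Ne.symm hℓ5)
  have h := s52a_main W W' 5 φ hadd hinj htor hequiv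
    (s52a_exists_exact W hΔ (by norm_num) (by decide)) ℓ hℓ hcop hg hg'
  exact_mod_cast h

end Fermat.Agent.S52
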