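/-
S52 (the 3–5 switch), node [AP], the seam of `S52/Seams.lean` (helper5; prefix `s52a_`):
`s52a_AP : s52_AP_stmt`, from `s52a_five` (`AP/Main.lean`).
-/
import Fermat.Agent.S52.Seams
import Fermat.Agent.S52.AP.Main

set_option autoImplicit false

open scoped WeierstrassCurve.Affine

namespace Fermat.Agent.S52

open Fermat.Agent.S58

theorem s52a_mem_torsionBy {V : WeierstrassCurve ℤ} {P : s58_E V} (h : 5 • P = 0) :
    P ∈ Submodule.torsionBy ℤ (s58_E V) ((5 : ℕ) : ℤ) := by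
  rw [Submodule.mem_torsionBy_iff, natCast_zsmul]
  exact h

theorem s52a_nsmul_of_mem {V : WeierstrassCurve ℤ} {P : s58_E V}
    (h : P ∈ Submodule.torsionBy ℤ (s58_E V) ((5 : ℕ) : ℤ)) : 5 • P = 0 := by
  rw [Submodule.mem_torsionBy_iff, natCast_zsmul] at h
  exact h

/-- **[AP]**, the seam of `S52/Seams.lean`. -/
theorem s52a_AP : s52_AP_stmt := by
  intro W W' hΔ _ hiso
  obtain ⟨φ, hφ⟩ := hiso
  classical
  let ψ : s58_E W → s58_E W' := fun P =>
    if h : 5 • P = 0 then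
      ((φ ⟨P, s52a_mem_torsionBy h⟩ : s52_Tors (W'.map (Int.castRingHom ℚ)) 5) : s58_E W')
    else 0
  have hψ : ∀ (P : s58_E W) (h : 5 • P = 0),
      ψ P = ((φ ⟨P, s52a_mem_torsionBy h⟩ : s52_Tors (W'.map (Int.castRingHom ℚ)) 5) :
        s58_E W') := fun P h => dif_pos h
  refine s52a_five W W' hΔ ψ ?_ ?_ ?_ ?_
  · intro P Q hP hQ
    have hPQ : 5 • (P + Q) = 0 := by rw [nsmul_add, hP, hQ, add_zero]
    rw [hψ P hP, hψ Q hQ, hψ (P + Q) hPQ]
    have : (⟨P + Q, s52a_mem_torsionBy hPQ⟩ : s52_Tors (W.map (Int.castRingHom ℚ)) 5) =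
        ⟨P, s52a_mem_torsionBy hP⟩ + ⟨Q, s52a_mem_torsionBy hQ⟩ := rfl
    rw [this, map_add]
    rfl
  · intro P hP h0
    rw [hψ P hP] at h0
    have h1 : φ ⟨P, s52a_mem_torsionBy hP⟩ = 0 := Subtype.ext h0
    have h2 := (map_eq_zero_iff φ φ.injective).1 h1
    exact congrArg Subtype.val h2
  · intro P hP
    rw [hψ P hP]
    exact s52a_nsmul_of_mem (φ ⟨P, s52a_mem_torsionBy hP⟩).2
  · intro σ P hP
    have hσP : 5 • (σ • P) = 0 := s52a_smul_mem_tor σ hP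
    rw [hψ P hP, hψ (σ • P) hσP]
    have : (⟨σ • P, s52a_mem_torsionBy hσP⟩ : s52_Tors (W.map (Int.castRingHom ℚ)) 5) =
        σ • ⟨P, s52a_mem_torsionBy hP⟩ := rfl
    rw [this, hφ]
    rfl

end Fermat.Agent.S52
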